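import Mathlib
import Fermat.Agent.LT.T7.H644.SetupSpec

/-!
# Row LT, tower T7, leaf T7.L2.1.C0.b `GalTransC644` (registry 2246; helper648)

OFF-MAIN.  `galTransC648 : H644.GalTransC644`, VERBATIM the frozen Prop of
`LT/T7/H644/SetupSpec.lean` (helper644@efda7f48e, sha256 c04970e4...), UNCONDITIONAL.
Imports: Mathlib + the spec file only.

Proof.  The Galois group `G = Gal(K'/K)` acts on `𝓞 K'` (Mathlib instance), and
`IsGaloisGroup G (𝓞 K) (𝓞 K')`; `Ideal.exists_smul_eq_of_isGaloisGroup` gives `τ` with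
`τ • w = w'` for two primes over `v`.  The pointwise action on ideals is `Ideal.map` of the
action, which is `RingOfIntegers.mapRingEquiv τ` as a function.
-/

set_option autoImplicit false

open IsDedekindDomain NumberField

noncomputable section

namespace Fermat.Agent.LT.T7.H648

open scoped Pointwise

/-- The pointwise action of an element of the Galois group on an ideal of the ring of integers is
`Ideal.map` of the restriction `RingOfIntegers.mapRingEquiv`. -/
theorem smul_ideal_eq_map648 {K K' : Type} [Field K] [Field K'] [NumberField K']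
    [Algebra K K'] (τ : K' ≃ₐ[K] K') (I : Ideal (𝓞 K')) :
    τ • I = Ideal.map (NumberField.RingOfIntegers.mapRingEquiv τ.toRingEquiv) I := by
  rw [Ideal.pointwise_smul_def]
  show Ideal.span _ = Ideal.span _
  congr 1

/-- The relation "`u` lies over `v`" of `T7.PlaceOver` (written out) gives `Ideal.LiesOver`. -/
theorem liesOver_of_placeOver648 {K K' : Type} [Field K] [NumberField K] [Field K']
    [NumberField K'] [Algebra K K'] (v : HeightOneSpectrum (𝓞 K))
    (u : HeightOneSpectrum (𝓞 K'))
    (hu : ∀ (x : 𝓞 K) (y : 𝓞 K'), (y : K') = algebraMap K K' (x : K) →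
      (x ∈ v.asIdeal ↔ y ∈ u.asIdeal)) : u.asIdeal.LiesOver v.asIdeal := by
  refine ⟨?_⟩
  ext x
  rw [Ideal.under_def, Ideal.mem_comap]
  exact hu x (algebraMap (𝓞 K) (𝓞 K') x) rfl

/-- **LEAF T7.L2.1.C0.b = TRANSITIVITY**, VERBATIM. -/
theorem galTransC648 : Fermat.Agent.LT.T7.H644.GalTransC644 := by
  intro K K' _ _ _ _ _ hG v w w' hw hw'
  have h1 : w.asIdeal.LiesOver v.asIdeal := liesOver_of_placeOver648 v w hw
  have h2 : w'.asIdeal.LiesOver v.asIdeal := liesOver_of_placeOver648 v w' hw'
  have h3 : w.asIdeal.IsPrime := w.isPrime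
  have h4 : w'.asIdeal.IsPrime := w'.isPrime
  obtain ⟨τ, hτ⟩ := Ideal.exists_smul_eq_of_isGaloisGroup v.asIdeal w.asIdeal w'.asIdeal
    (K' ≃ₐ[K] K')
  exact ⟨τ, by rw [← hτ, smul_ideal_eq_map648]⟩

end Fermat.Agent.LT.T7.H648

end
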